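import Mathlib
import Fermat.Agent.LT.T7.H193.KillSpec

/-!
# Row LT, tower T7, node T7.L2.1 `SupplyC`, sub-station NATURAL, leaf NAT.3 `NatOpC` (helper392)

OFF-MAIN.  `natOpC392 K : T7.H193.NatOpC K` VERBATIM (spec `T7/H193/KillSpec.lean`,
sha256 2cb0a205bd364545, helper193@4a1c7c2bb, byte-identical copy).

`R(φ♮) e = R(φ) (P_∞ e)` for continuous `e` and `φ` continuous of compact support:
Fubini on `G × D` twice and the right invariance of `μ` under `y ↦ y a(t)`.
-/

set_option autoImplicit false
set_option linter.unusedSectionVars false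
set_option linter.style.haveILetI false

open IsDedekindDomain NumberField MeasureTheory
open scoped ComplexConjugate

noncomputable section

namespace Fermat.Agent.LT.T7.H392

open Fermat.Agent.LT.H556 Fermat.Agent.LT.H556.A0 Fermat.Agent.LT Fermat.Agent.LT.T7
  Fermat.Agent.LT.T7.H193

attribute [local instance] Fermat.Agent.LT.T5.instMeasurableSpaceG

section Abstract

variable {X ι : Type} [TopologicalSpace X] [MeasurableSpace X] [BorelSpace X]
  [SecondCountableTopology X] [T2Space X] [Fintype ι]

/-- Fubini on `X × D` for a jointly continuous function which vanishes, for the parameters of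
`D`, outside a fixed compact set of `X`. -/
theorem integral_swap_of_compact392 (μ : Measure X) [IsFiniteMeasureOnCompacts μ] [SFinite μ]
    (D : Set (ι → ℝ)) (hDm : MeasurableSet D) (hDb : Bornology.IsBounded D)
    (F : X → (ι → ℝ) → ℂ) (hF : Continuous (Function.uncurry F))
    (C : Set X) (hC : IsCompact C) (hzero : ∀ y, y ∉ C → ∀ t ∈ D, F y t = 0) :
    ∫ y, (∫ t in D, F y t) ∂μ = ∫ t in D, (∫ y, F y t ∂μ) := by
  have hT : IsCompact (closure D) := hDb.isCompact_closure
  have hint : Integrable (Function.uncurry F) (μ.prod (volume.restrict D)) := by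
    have h1 : μ.prod (volume.restrict D)
        = (μ.prod (volume : Measure (ι → ℝ))).restrict (Set.univ ×ˢ D) := by
      rw [← Measure.prod_restrict, Measure.restrict_univ]
    rw [h1]
    have h2 : IntegrableOn (Function.uncurry F) (C ×ˢ closure D)
        (μ.prod (volume : Measure (ι → ℝ))) :=
      hF.continuousOn.integrableOn_compact (hC.prod hT)
    refine h2.of_forall_sdiff_eq_zero (MeasurableSet.univ.prod hDm) ?_
    rintro ⟨y, t⟩ ⟨⟨-, ht⟩, hn⟩
    have hy : y ∉ C := fun hy => hn ⟨hy, subset_closure ht⟩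
    exact hzero y hy t ht
  exact integral_integral_swap hint

end Abstract

section Main

variable {K : Type} [Field K] [NumberField K]

/-- The change of variables `y ↦ y g` for a right invariant measure. -/
theorem integral_mul_right392 (μ : Measure (G K))
    (hμ : ∀ (g : G K) (A : Set (G K)), MeasurableSet A → μ ((fun x => x * g) ⁻¹' A) = μ A)
    (g : G K) (f : G K → ℂ) : ∫ y, f (y * g) ∂μ = ∫ y, f y ∂μ := by
  haveI : BorelSpace (G K) := ⟨rfl⟩
  have hmap : Measure.map (Homeomorph.mulRight g).toMeasurableEquiv μ = μ := by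
    ext A hA
    rw [MeasurableEquiv.map_apply]
    exact hμ g A hA
  calc ∫ y, f (y * g) ∂μ
      = ∫ y, f ((Homeomorph.mulRight g).toMeasurableEquiv y) ∂μ := rfl
    _ = ∫ y, f y ∂(Measure.map (Homeomorph.mulRight g).toMeasurableEquiv μ) :=
        (integral_map_equiv _ f).symm
    _ = ∫ y, f y ∂μ := by rw [hmap]

/-- **LEAF NAT.3 = NAT-OP** (`T7.H193.NatOpC`, VERBATIM). -/
theorem natOpC392 (K : Type) [Field K] [NumberField K] : NatOpC K := by
  intro hT1 R hR 𝔑 r a D hD φ hφc hφs e hec x
  obtain ⟨-, hlc, ht2, hsc⟩ := hT1.locComp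
  haveI := hlc
  haveI := ht2
  haveI := hsc
  haveI : BorelSpace (G K) := ⟨rfl⟩
  haveI : R.μ.IsHaarMeasure := hR.frame.haar
  have hri := integral_mul_right392 R.μ hR.frame.right_inv
  have ha : Continuous a := hD.cont
  -- the two functions on `G × D`
  set F₁ : G K → (InfinitePlace K → ℝ) → ℂ := fun y t => φ (y * (a t)⁻¹) * e (x * y) with hF₁
  set F₂ : G K → (InfinitePlace K → ℝ) → ℂ := fun y t => φ y * e (x * y * a t) with hF₂
  have hF₁c : Continuous (Function.uncurry F₁) := by
    have h1 : Continuous fun p : G K × (InfinitePlace K → ℝ) => p.1 * (a p.2)⁻¹ :=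
      continuous_fst.mul (ha.comp continuous_snd).inv
    have h2 : Continuous fun p : G K × (InfinitePlace K → ℝ) => x * p.1 :=
      continuous_const.mul continuous_fst
    exact (hφc.comp h1).mul (hec.comp h2)
  have hF₂c : Continuous (Function.uncurry F₂) := by
    have h2 : Continuous fun p : G K × (InfinitePlace K → ℝ) => x * p.1 * a p.2 :=
      (continuous_const.mul continuous_fst).mul (ha.comp continuous_snd)
    exact (hφc.comp continuous_fst).mul (hec.comp h2)
  -- the compact sets
  have hT : IsCompact (closure D) := hD.bdd.isCompact_closure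
  set C₁ : Set (G K) :=
    (fun p : G K × (InfinitePlace K → ℝ) => p.1 * a p.2) '' (tsupport φ ×ˢ closure D) with hC₁
  have hC₁c : IsCompact C₁ :=
    (hφs.isCompact.prod hT).image (continuous_fst.mul (ha.comp continuous_snd))
  have hz₁ : ∀ y, y ∉ C₁ → ∀ t ∈ D, F₁ y t = 0 := by
    intro y hy t ht
    have h0 : φ (y * (a t)⁻¹) = 0 := by
      by_contra hne
      apply hy
      refine ⟨(y * (a t)⁻¹, t), ⟨subset_tsupport φ hne, subset_closure ht⟩, ?_⟩
      simp
    simp only [hF₁, h0, zero_mul]
  have hz₂ : ∀ y, y ∉ tsupport φ → ∀ t ∈ D, F₂ y t = 0 := by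
    intro y hy t _
    simp only [hF₂, image_eq_zero_of_notMem_tsupport hy, zero_mul]
  have hsw₁ := integral_swap_of_compact392 R.μ D hD.meas hD.bdd F₁ hF₁c C₁ hC₁c hz₁
  have hsw₂ := integral_swap_of_compact392 R.μ D hD.meas hD.bdd F₂ hF₂c (tsupport φ)
    hφs.isCompact hz₂
  -- the change of variables
  have hcv : ∀ t : InfinitePlace K → ℝ, ∫ y, F₁ y t ∂(R.μ) = ∫ y, F₂ y t ∂(R.μ) := by
    intro t
    rw [← hri (a t) (fun y => F₁ y t)]
    refine integral_congr_ae (Filter.Eventually.of_forall fun y => ?_)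
    simp only [hF₁, hF₂, mul_assoc, mul_inv_cancel, mul_one]
  -- assembly
  show ∫ y, nat193 a D φ y * e (x * y) ∂(R.μ) = ∫ y, φ y * torAvg a D e (x * y) ∂(R.μ)
  set c : ℂ := (((volume D).toReal : ℝ) : ℂ)⁻¹ with hc
  have hL : ∀ y : G K, nat193 a D φ y * e (x * y) = c * ∫ t in D, F₁ y t := by
    intro y
    show (c * ∫ t in D, φ (y * (a t)⁻¹)) * e (x * y) = c * ∫ t in D, F₁ y t
    rw [mul_assoc, ← integral_mul_const]
  have hRr : ∀ y : G K, φ y * torAvg a D e (x * y) = c * ∫ t in D, F₂ y t := by
    intro y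
    show φ y * (c * ∫ t in D, e (x * y * a t)) = c * ∫ t in D, F₂ y t
    rw [mul_left_comm, ← integral_const_mul]
  simp only [hL, hRr]
  rw [integral_const_mul, integral_const_mul, hsw₁, hsw₂]
  congr 1
  exact integral_congr_ae (Filter.Eventually.of_forall fun t => hcv t)

end Main

end Fermat.Agent.LT.T7.H392
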